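import Mathlib
import Fermat.Agent.LT.T7.H973.PreBQSpec
import Fermat.Agent.LT.T7.H281.LevelInv
import Fermat.Agent.LT.H129.CartanInv
import Fermat.Agent.LT.T6.H777.Lvl

/-!
# Row LT, tower T7, node `PBQ973.PreBQC973` (second cut of helper973 over `ℚ`), leaf PBQ.0.U3
`SwapUpInvQC973` -- PROVED, UNCONDITIONAL (helper688, registry row 3134)

OFF-MAIN.  No hole, nothing assumed.  ADDITIVE (new names only, suffix `688`).

    swapUpInvQC688 (F) : PBQ973.SwapUpInvQC973 F

verbatim against `LT/T7/H973/PreBQSpec.lean` (helper973@a2ff41d85, sha256 200eee4e).  NOT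
conditional on the key identity `SwapUpSumQC973`.  Upstairs mirror over `ℚ` of the proof of
helper313 (`T7/H313/SwapDnInv.lean`, cubic, downstairs).

Proof.  Every member `pure305 (T' ω) (swUpQ973 B T₀ n₀ (φ₀ ω)) (Φ ω)` of the average is invariant
on both sides under every element `k` which is trivial at infinity, Iwahori at the places
`o j`, `j < 2`, and in `U(n₀ w)` at the other finite places (`IsGoodUp688`):
* the condition `OutT305` outside `T' ω`: `k` and `k⁻¹` are integral everywhere;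
* at a place over `u` (`= o j`, `orbit_all`) the component is the indicator function of the
  Iwahori subgroup (`T7/H340/IwKit.lean`);
* at a place over `T₀`, not over `u`, the component is the unit `1_{U(n₀ w)}` and `U(n₀ w)` is a
  group (`T6/H777/Lvl.lean`);
* at the other places of `T' ω` the component is spherical (`SphOut893` of the first triple) and
  the Cartan invariant is bi-`U(0)`-invariant (`H129/CartanInv.lean`);
* at infinity the components of `k` are trivial.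
The elements of the level group `U(𝔑₀)` are good (`IsLevelOf893 𝔑₀ n₀`, `o j ∣ 𝔑₀`), and so are
the Iwahori elements supported along the orbit.
-/

set_option autoImplicit false
set_option linter.unusedSectionVars false
set_option linter.style.haveILetI false

open AutomorphicForm IsDedekindDomain NumberField MeasureTheory

noncomputable section

namespace Fermat.Agent.LT.T7.H688

open Fermat.Agent.LT.H556 Fermat.Agent.LT.H556.A0 Fermat.Agent.LT.T7 Fermat.Agent.LT.T7.H305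
  Fermat.Agent.LT.T7.L2Q Fermat.Agent.LT.T7.H893 Fermat.Agent.LT.T7.H962
  Fermat.Agent.LT.T7.H732 Fermat.Agent.LT.T7.MQ298 Fermat.Agent.LT.T7.CQ801
  Fermat.Agent.LT.T7.PBQ973

attribute [local instance] Fermat.Agent.LT.T5.instMeasurableSpaceG

section OneField

variable {K : Type} [Field K] [NumberField K]

/-! ## 1. Components -/

theorem finGL_apply688 (v : HeightOneSpectrum (𝓞 K)) (g : G K) (i j : Fin 2) :
    ((finGL305 v g : GL (Fin 2) (v.adicCompletion K)) :
      Matrix (Fin 2) (Fin 2) (v.adicCompletion K)) i j = finComp v g i j := rfl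

theorem finGL_inv_apply688 (v : HeightOneSpectrum (𝓞 K)) (g : G K) (i j : Fin 2) :
    (((finGL305 v g)⁻¹ : GL (Fin 2) (v.adicCompletion K)) :
      Matrix (Fin 2) (Fin 2) (v.adicCompletion K)) i j = finComp v g⁻¹ i j := by
  rw [← map_inv]
  rfl

theorem finGL_eq_one688 {v : HeightOneSpectrum (𝓞 K)} {g : G K} (h : TrivAtFin v g) :
    finGL305 v g = 1 := by
  refine Units.ext (Matrix.ext fun i j => ?_)
  rw [finGL_apply688]
  have h' : finComp v g = 1 := h
  rw [h']
  rfl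

theorem infGL_eq_one688 {w : InfinitePlace K} {g : G K} (h : TrivAtInf w g) :
    infGL305 w g = 1 := by
  refine Units.ext (Matrix.ext fun i j => ?_)
  show InfinitePlace.Completion.extensionEmbedding w
    (((g : Matrix (Fin 2) (Fin 2) (Adl K)) i j).1 w) = (1 : Matrix (Fin 2) (Fin 2) ℂ) i j
  rw [h i j]
  by_cases hij : i = j
  · subst hij
    rw [Matrix.one_apply_eq, Matrix.one_apply_eq, map_one]
  · rw [Matrix.one_apply_ne hij, Matrix.one_apply_ne hij, map_zero]

/-! ## 2. The local groups -/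

theorem inU_zero_of688 {k : Type} [Field k] [Valued k (WithZero (Multiplicative ℤ))] {n : ℕ}
    {x : GL (Fin 2) k} (h : T6.InU n x) : T6.InU 0 x := by
  have hle : WithZero.exp (-(n : ℤ)) ≤ WithZero.exp (-((0 : ℕ) : ℤ)) := by
    rw [WithZero.exp_le_exp]
    simp
  intro i j
  exact ⟨(h i j).1.trans hle, (h i j).2.trans hle⟩

theorem inU_mul_left_iff688 {k : Type} [Field k] [Valued k (WithZero (Multiplicative ℤ))]
    {n : ℕ} {a : GL (Fin 2) k} (ha : T6.InU n a) (x : GL (Fin 2) k) :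
    T6.InU n (a * x) ↔ T6.InU n x := by
  constructor
  · intro h
    have := Fermat.Agent.LT.T6.H777.inU_mul777 (Fermat.Agent.LT.T6.H777.inU_inv777 ha) h
    rwa [inv_mul_cancel_left] at this
  · exact fun h => Fermat.Agent.LT.T6.H777.inU_mul777 ha h

theorem inU_mul_right_iff688 {k : Type} [Field k] [Valued k (WithZero (Multiplicative ℤ))]
    {n : ℕ} {a : GL (Fin 2) k} (ha : T6.InU n a) (x : GL (Fin 2) k) :
    T6.InU n (x * a) ↔ T6.InU n x := by
  constructor
  · intro h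
    have := Fermat.Agent.LT.T6.H777.inU_mul777 h (Fermat.Agent.LT.T6.H777.inU_inv777 ha)
    rwa [mul_inv_cancel_right] at this
  · exact fun h => Fermat.Agent.LT.T6.H777.inU_mul777 h ha

/-- The elements of `U(n)` of the form `finGL305 v k` are integral with integral inverse. -/
theorem isIntegralAt_of_inU688 {v : HeightOneSpectrum (𝓞 K)} {n : ℕ} {k : G K}
    (h : T6.InU n (finGL305 v k)) : IsIntegralAt v k ∧ IsIntegralAt v k⁻¹ := by
  have h0 := (Fermat.Agent.LT.H129.inU_zero_iff129 _).1 (inU_zero_of688 h)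
  refine ⟨fun i j => ?_, fun i j => ?_⟩
  · rw [HeightOneSpectrum.mem_adicCompletionIntegers, ← finGL_apply688]
    exact h0.1 i j
  · rw [HeightOneSpectrum.mem_adicCompletionIntegers, ← finGL_inv_apply688]
    exact h0.2 i j

theorem inIw_iff688 (w : HeightOneSpectrum (𝓞 K)) (g : G K) :
    InIw893 (finGL305 w g) ↔ T5.InIwahori w g := by
  constructor
  · rintro ⟨h1, h2, h3⟩
    refine ⟨fun i j => ?_, fun i j => ?_, h3⟩
    · rw [HeightOneSpectrum.mem_adicCompletionIntegers, ← finGL_apply688]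
      exact h1 i j
    · rw [HeightOneSpectrum.mem_adicCompletionIntegers, ← finGL_inv_apply688]
      exact h2 i j
  · rintro ⟨h1, h2, h3⟩
    refine ⟨fun i j => ?_, fun i j => ?_, h3⟩
    · rw [finGL_apply688]
      exact (HeightOneSpectrum.mem_adicCompletionIntegers _ _ _).1 (h1 i j)
    · rw [finGL_inv_apply688]
      exact (HeightOneSpectrum.mem_adicCompletionIntegers _ _ _).1 (h2 i j)

theorem inIwahori_mul_left_iff688 {w : HeightOneSpectrum (𝓞 K)} {k : G K}
    (hk : T5.InIwahori w k) (y : G K) : T5.InIwahori w (k * y) ↔ T5.InIwahori w y := by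
  constructor
  · intro h
    have := H340.inIwahori_mul340 (H340.inIwahori_inv340 hk) h
    rwa [inv_mul_cancel_left] at this
  · exact fun h => H340.inIwahori_mul340 hk h

theorem inIwahori_mul_right_iff688 {w : HeightOneSpectrum (𝓞 K)} {k : G K}
    (hk : T5.InIwahori w k) (y : G K) : T5.InIwahori w (y * k) ↔ T5.InIwahori w y := by
  constructor
  · intro h
    have := H340.inIwahori_mul340 h (H340.inIwahori_inv340 hk)
    rwa [mul_inv_cancel_right] at this
  · exact fun h => H340.inIwahori_mul340 h hk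

theorem isIntegralAt_mul688 (v : HeightOneSpectrum (𝓞 K)) {a b : G K}
    (ha : IsIntegralAt v a) (hb : IsIntegralAt v b) : IsIntegralAt v (a * b) :=
  Fermat.Agent.LT.T5.H942.isIntegralAt_mul942 v ha hb

/-! ## 3. The good elements -/

/-- `k` is trivial at infinity, Iwahori at the places `o j`, `j < l`, and in `U(n₀ v)` at the
other finite places. -/
def IsGoodUp688 (l : ℕ) (o : ℕ → HeightOneSpectrum (𝓞 K)) (n₀ : HeightOneSpectrum (𝓞 K) → ℕ)
    (k : G K) : Prop :=
  (∀ w : InfinitePlace K, TrivAtInf w k) ∧ (∀ j < l, T5.InIwahori (o j) k) ∧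
    ∀ v : HeightOneSpectrum (𝓞 K), (∀ j < l, v ≠ o j) → T6.InU (n₀ v) (finGL305 v k)

theorem IsGoodUp688.integral {l : ℕ} {o : ℕ → HeightOneSpectrum (𝓞 K)}
    {n₀ : HeightOneSpectrum (𝓞 K) → ℕ} {k : G K} (hk : IsGoodUp688 l o n₀ k)
    (v : HeightOneSpectrum (𝓞 K)) : IsIntegralAt v k ∧ IsIntegralAt v k⁻¹ := by
  by_cases hv : ∀ j < l, v ≠ o j
  · exact isIntegralAt_of_inU688 (hk.2.2 v hv)
  · push Not at hv
    obtain ⟨j, hj, rfl⟩ := hv
    exact ⟨(hk.2.1 j hj).1, (hk.2.1 j hj).2.1⟩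

theorem outT_mul_left_iff688 {k : G K}
    (hk : ∀ v : HeightOneSpectrum (𝓞 K), IsIntegralAt v k ∧ IsIntegralAt v k⁻¹)
    (T : Finset (HeightOneSpectrum (𝓞 K))) (y : G K) :
    OutT305 T (k * y) ↔ OutT305 T y := by
  constructor
  · intro h v hv
    obtain ⟨h1, h2⟩ := h v hv
    obtain ⟨k1, k2⟩ := hk v
    refine ⟨?_, ?_⟩
    · have := isIntegralAt_mul688 v k2 h1
      rwa [inv_mul_cancel_left] at this
    · have := isIntegralAt_mul688 v h2 k1
      rwa [mul_inv_rev, inv_mul_cancel_right] at this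
  · intro h v hv
    obtain ⟨h1, h2⟩ := h v hv
    obtain ⟨k1, k2⟩ := hk v
    refine ⟨isIntegralAt_mul688 v k1 h1, ?_⟩
    rw [mul_inv_rev]
    exact isIntegralAt_mul688 v h2 k2

theorem outT_mul_right_iff688 {k : G K}
    (hk : ∀ v : HeightOneSpectrum (𝓞 K), IsIntegralAt v k ∧ IsIntegralAt v k⁻¹)
    (T : Finset (HeightOneSpectrum (𝓞 K))) (y : G K) :
    OutT305 T (y * k) ↔ OutT305 T y := by
  constructor
  · intro h v hv
    obtain ⟨h1, h2⟩ := h v hv
    obtain ⟨k1, k2⟩ := hk v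
    refine ⟨?_, ?_⟩
    · have := isIntegralAt_mul688 v h1 k2
      rwa [mul_inv_cancel_right] at this
    · have := isIntegralAt_mul688 v k1 h2
      rwa [mul_inv_rev, mul_inv_cancel_left] at this
  · intro h v hv
    obtain ⟨h1, h2⟩ := h v hv
    obtain ⟨k1, k2⟩ := hk v
    refine ⟨isIntegralAt_mul688 v h1 k1, ?_⟩
    rw [mul_inv_rev]
    exact isIntegralAt_mul688 v k2 h2

/-- The elements of the level group are good. -/
theorem isGoodUp_of_level688 {𝔑₀ : Ideal (𝓞 K)} {l : ℕ} {o : ℕ → HeightOneSpectrum (𝓞 K)}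
    {n₀ : HeightOneSpectrum (𝓞 K) → ℕ} (ho : ∀ j < l, (o j).asIdeal ∣ 𝔑₀)
    (hn : IsLevelOf893 𝔑₀ n₀) {k : G K} (hk : InLevelGroup 𝔑₀ k) : IsGoodUp688 l o n₀ k := by
  refine ⟨hk.1, fun j hj => H281.inIwahori_of_level281 (ho j hj) hk, fun v _ i j => ⟨?_, ?_⟩⟩
  · have := (hn v _).1 (hk.2 v i j).1
    rwa [Matrix.sub_apply, ← finGL_apply688] at this
  · have := (hn v _).1 (hk.2 v i j).2
    rwa [Matrix.sub_apply, ← finGL_inv_apply688] at this

/-- The Iwahori elements supported along the orbit are good. -/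
theorem isGoodUp_of_iw688 {l : ℕ} {o : ℕ → HeightOneSpectrum (𝓞 K)}
    (n₀ : HeightOneSpectrum (𝓞 K) → ℕ) {h : G K} (h1 : ∀ w : InfinitePlace K, TrivAtInf w h)
    (h2 : ∀ v : HeightOneSpectrum (𝓞 K), (∀ j < l, v ≠ o j) → TrivAtFin v h)
    (h3 : ∀ j < l, T5.InIwahori (o j) h) : IsGoodUp688 l o n₀ h := by
  refine ⟨h1, h3, fun v hv => ?_⟩
  rw [finGL_eq_one688 (h2 v hv)]
  exact Fermat.Agent.LT.T6.H777.inU_one777 _

end OneField

/-! ## 4. The swapped components -/

section Swap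

variable {F : Type} [Field F] [NumberField F]

open Classical in
/-- The swapped components upstairs are invariant under the components of a good element. -/
theorem swUp_inv688 (B : L2QBase962 F) (hover : ∀ j : ℕ, PlaceOver ℚ F B.u (B.o j))
    (hall : ∀ w : HeightOneSpectrum (𝓞 F), PlaceOver ℚ F B.u w → ∃ j < 2, w = B.o j)
    (T₀ : Finset (HeightOneSpectrum (𝓞 ℚ))) (T' : Finset (HeightOneSpectrum (𝓞 F)))
    (n₀ : HeightOneSpectrum (𝓞 F) → ℕ)
    (φ₀ : ∀ w : HeightOneSpectrum (𝓞 F), GL (Fin 2) (w.adicCompletion F) → ℂ)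
    (hsph : ∀ w ∈ T', (¬ ∃ v ∈ T₀, PlaceOver ℚ F v w) →
      ∃ A : (ℤ × ℤ) →₀ ℂ, IsSphFn893 (φ₀ w) A)
    {k : G F} (hk : IsGoodUp688 2 B.o n₀ k) (w : HeightOneSpectrum (𝓞 F)) (hw : w ∈ T')
    (y : G F) :
    swUpQ973 B T₀ n₀ φ₀ w (finGL305 w (k * y)) = swUpQ973 B T₀ n₀ φ₀ w (finGL305 w y) ∧
      swUpQ973 B T₀ n₀ φ₀ w (finGL305 w (y * k)) = swUpQ973 B T₀ n₀ φ₀ w (finGL305 w y) := by
  unfold swUpQ973
  by_cases hwu : PlaceOver ℚ F B.u w
  · simp only [if_pos hwu]
    obtain ⟨j, hj, rfl⟩ := hall w hwu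
    have hkI := hk.2.1 j hj
    unfold iwFn893
    have h1 : InIw893 (finGL305 (B.o j) (k * y)) ↔ InIw893 (finGL305 (B.o j) y) := by
      rw [inIw_iff688, inIw_iff688]
      exact inIwahori_mul_left_iff688 hkI y
    have h2 : InIw893 (finGL305 (B.o j) (y * k)) ↔ InIw893 (finGL305 (B.o j) y) := by
      rw [inIw_iff688, inIw_iff688]
      exact inIwahori_mul_right_iff688 hkI y
    refine ⟨?_, ?_⟩
    · by_cases hy : InIw893 (finGL305 (B.o j) y)
      · rw [if_pos hy, if_pos (h1.2 hy)]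
      · rw [if_neg hy, if_neg (fun h => hy (h1.1 h))]
    · by_cases hy : InIw893 (finGL305 (B.o j) y)
      · rw [if_pos hy, if_pos (h2.2 hy)]
      · rw [if_neg hy, if_neg (fun h => hy (h2.1 h))]
  · simp only [if_neg hwu]
    have hno : ∀ j < 2, w ≠ B.o j := fun j _ h => hwu (h ▸ hover j)
    have hkU := hk.2.2 w hno
    by_cases hwT : ∃ v ∈ T₀, PlaceOver ℚ F v w
    · simp only [if_pos hwT]
      unfold unitFn893
      have h1 : T6.InU (n₀ w) (finGL305 w (k * y)) ↔ T6.InU (n₀ w) (finGL305 w y) := by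
        rw [map_mul]
        exact inU_mul_left_iff688 hkU _
      have h2 : T6.InU (n₀ w) (finGL305 w (y * k)) ↔ T6.InU (n₀ w) (finGL305 w y) := by
        rw [map_mul]
        exact inU_mul_right_iff688 hkU _
      refine ⟨?_, ?_⟩
      · by_cases hy : T6.InU (n₀ w) (finGL305 w y)
        · rw [if_pos hy, if_pos (h1.2 hy)]
        · rw [if_neg hy, if_neg (fun h => hy (h1.1 h))]
      · by_cases hy : T6.InU (n₀ w) (finGL305 w y)
        · rw [if_pos hy, if_pos (h2.2 hy)]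
        · rw [if_neg hy, if_neg (fun h => hy (h2.1 h))]
    · simp only [if_neg hwT]
      obtain ⟨A, -, hA⟩ := hsph w hw hwT
      have hk0 := inU_zero_of688 hkU
      have h10 : T6.InU 0 (1 : GL (Fin 2) (w.adicCompletion F)) :=
        Fermat.Agent.LT.T6.H777.inU_one777 0
      refine ⟨?_, ?_⟩
      · rw [hA, hA]
        have := Fermat.Agent.LT.H129.cartan_mul129 (g := finGL305 w y) hk0 h10
        rw [mul_one, ← map_mul] at this
        rw [this]
      · rw [hA, hA]
        have := Fermat.Agent.LT.H129.cartan_mul129 (g := finGL305 w y) h10 hk0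
        rw [one_mul, ← map_mul] at this
        rw [this]

open Classical in
/-- The swapped pure tensor upstairs is invariant on both sides under the good elements. -/
theorem pure_swUp_inv688 (B : L2QBase962 F) (hover : ∀ j : ℕ, PlaceOver ℚ F B.u (B.o j))
    (hall : ∀ w : HeightOneSpectrum (𝓞 F), PlaceOver ℚ F B.u w → ∃ j < 2, w = B.o j)
    (T₀ : Finset (HeightOneSpectrum (𝓞 ℚ))) (T' : Finset (HeightOneSpectrum (𝓞 F)))
    (n₀ : HeightOneSpectrum (𝓞 F) → ℕ)
    (φ₀ : ∀ w : HeightOneSpectrum (𝓞 F), GL (Fin 2) (w.adicCompletion F) → ℂ)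
    (Φ : InfinitePlace F → GL (Fin 2) ℂ → ℂ)
    (hsph : ∀ w ∈ T', (¬ ∃ v ∈ T₀, PlaceOver ℚ F v w) →
      ∃ A : (ℤ × ℤ) →₀ ℂ, IsSphFn893 (φ₀ w) A)
    {k : G F} (hk : IsGoodUp688 2 B.o n₀ k) (y : G F) :
    pure305 T' (swUpQ973 B T₀ n₀ φ₀) Φ (k * y) = pure305 T' (swUpQ973 B T₀ n₀ φ₀) Φ y ∧
      pure305 T' (swUpQ973 B T₀ n₀ φ₀) Φ (y * k) = pure305 T' (swUpQ973 B T₀ n₀ φ₀) Φ y := by
  have hint := hk.integral
  have hinfl : ∀ w : InfinitePlace F, infGL305 w (k * y) = infGL305 w y := by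
    intro w
    rw [map_mul, infGL_eq_one688 (hk.1 w), one_mul]
  have hinfr : ∀ w : InfinitePlace F, infGL305 w (y * k) = infGL305 w y := by
    intro w
    rw [map_mul, infGL_eq_one688 (hk.1 w), mul_one]
  have hfl : ∏ w ∈ T', swUpQ973 B T₀ n₀ φ₀ w (finGL305 w (k * y))
      = ∏ w ∈ T', swUpQ973 B T₀ n₀ φ₀ w (finGL305 w y) :=
    Finset.prod_congr rfl fun w hw =>
      (swUp_inv688 B hover hall T₀ T' n₀ φ₀ hsph hk w hw y).1
  have hfr : ∏ w ∈ T', swUpQ973 B T₀ n₀ φ₀ w (finGL305 w (y * k))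
      = ∏ w ∈ T', swUpQ973 B T₀ n₀ φ₀ w (finGL305 w y) :=
    Finset.prod_congr rfl fun w hw =>
      (swUp_inv688 B hover hall T₀ T' n₀ φ₀ hsph hk w hw y).2
  have hil : (∏ w : InfinitePlace F, Φ w (infGL305 w (k * y)))
      = ∏ w : InfinitePlace F, Φ w (infGL305 w y) :=
    Finset.prod_congr rfl fun w _ => by rw [hinfl w]
  have hir : (∏ w : InfinitePlace F, Φ w (infGL305 w (y * k)))
      = ∏ w : InfinitePlace F, Φ w (infGL305 w y) :=
    Finset.prod_congr rfl fun w _ => by rw [hinfr w]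
  unfold pure305
  refine ⟨?_, ?_⟩
  · by_cases hy : OutT305 T' y
    · rw [if_pos hy, if_pos ((outT_mul_left_iff688 hint T' y).2 hy), hfl, hil]
    · rw [if_neg hy, if_neg (fun h => hy ((outT_mul_left_iff688 hint T' y).1 h))]
  · by_cases hy : OutT305 T' y
    · rw [if_pos hy, if_pos ((outT_mul_right_iff688 hint T' y).2 hy), hfr, hir]
    · rw [if_neg hy, if_neg (fun h => hy ((outT_mul_right_iff688 hint T' y).1 h))]

end Swap

/-! ## 5. The leaf -/

open Classical in
/-- **LEAF PBQ.0.U3 = SWAP-UP-INV over `ℚ`**, unconditional. -/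
theorem swapUpInvQC688 (F : Type) [Field F] [NumberField F] :
    Fermat.Agent.LT.T7.PBQ973.SwapUpInvQC973 F := by
  intro _ _ Φe B hB _ g _ 𝔫 _ μr μc _ _ T₀ n n₀ m hlev c _ c₁ Φ₁ F₁ _ fb _ Ω iT _ _ _ iM _ ν _
    T T' φ₀ Φ f₀ F0 F1 hdat
  have hB' := isL2QBase962_of60_732 hB
  have hover : ∀ j : ℕ, PlaceOver ℚ F (toBase962_732 B).u ((toBase962_732 B).o j) :=
    hB'.orbit_over
  have hall : ∀ w : HeightOneSpectrum (𝓞 F), PlaceOver ℚ F (toBase962_732 B).u w →
      ∃ j < 2, w = (toBase962_732 B).o j := hB'.orbit_all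
  have hdiv : ∀ j < 2, ((toBase962_732 B).o j).asIdeal ∣ (toBase962_732 B).𝔑₀ :=
    fun j _ => (hB'.mem_S' _).1 (hB'.orbit_level j)
  have hsph : ∀ ω : Ω, ∀ w ∈ T' ω, (¬ ∃ v ∈ T₀, PlaceOver ℚ F v w) →
      ∃ A : (ℤ × ℤ) →₀ ℂ, IsSphFn893 (φ₀ ω w) A := by
    intro ω w hw hwT
    obtain ⟨-, hover', hloc⟩ := hdat.1 ω
    obtain ⟨v, hv, hvw⟩ := (hover' w).1 hw
    have hvT : v ∉ T₀ := fun h => hwT ⟨v, h, hvw⟩
    obtain ⟨A, Av, -, hAw, -⟩ := hloc.2.2.1 v hv hvT
    exact ⟨A w, hAw w hvw⟩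
  have key : ∀ k : G F, IsGoodUp688 2 (toBase962_732 B).o n₀ k → ∀ y : G F,
      swapUpFnQ973 (toBase962_732 B) T₀ n₀ ν T' φ₀ Φ (k * y)
          = swapUpFnQ973 (toBase962_732 B) T₀ n₀ ν T' φ₀ Φ y ∧
        swapUpFnQ973 (toBase962_732 B) T₀ n₀ ν T' φ₀ Φ (y * k)
          = swapUpFnQ973 (toBase962_732 B) T₀ n₀ ν T' φ₀ Φ y := by
    intro k hk y
    unfold swapUpFnQ973
    refine ⟨?_, ?_⟩
    · refine integral_congr_ae (Filter.Eventually.of_forall fun ω => ?_)
      exact (pure_swUp_inv688 (toBase962_732 B) hover hall T₀ (T' ω) n₀ (φ₀ ω) (Φ ω)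
        (hsph ω) hk y).1
    · refine integral_congr_ae (Filter.Eventually.of_forall fun ω => ?_)
      exact (pure_swUp_inv688 (toBase962_732 B) hover hall T₀ (T' ω) n₀ (φ₀ ω) (Φ ω)
        (hsph ω) hk y).2
  exact ⟨fun u hu y => key u (isGoodUp_of_level688 hdiv hlev.lev_base hu) y,
    fun h h1 h2 h3 y => key h (isGoodUp_of_iw688 n₀ h1 h2 h3) y⟩

/-- The statement of the leaf, verbatim. -/
example (F : Type) [Field F] [NumberField F] :
    SwapCtxQ973 F fun _ B _ _ _ _ _ T₀ _ n₀ _ _ _ _ _ _ ν _ T' φ₀ Φ _ _ _ =>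
      H193.IsBiHInv B.𝔑₀ 2 B.o (swapUpFnQ973 B T₀ n₀ ν T' φ₀ Φ) :=
  swapUpInvQC688 F

end Fermat.Agent.LT.T7.H688

end
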